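/-
Cluster J (S59), endgame leaf (E2): `p`-stabilisation.  (owner: helper23)

`g(z) = f(z) - β f(p z)`, `β` a root of `X² - a_p X + p`; `a_n(g) = a_n(f) - β a_{n/p}(f)`.
* `pstab_arith` : the arithmetic of the coefficient sequences;
* `pstab_exists_form` : the cusp form `f - β f(p z)` of level `N p` and its `q`-expansion.
-/
import Fermat.Prelude.Def_FLTPrelim_Modularity
import Fermat.Agent.S16.NormInt.Shift
import Fermat.Agent.S23.MF

set_option autoImplicit false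
set_option linter.style.haveILetI false

open Polynomial

namespace Fermat.Agent.S59

open CuspForm

section Arith

/-- The arithmetic of `p`-stabilisation on coefficient sequences. -/
theorem pstab_arith {N p : ℕ} (hp : p.Prime) (hpN : ¬ p ∣ N) (a : ℕ → ℂ) (β : ℂ)
    (hβ : β * β - a p * β + p = 0)
    (h1 : a 1 = 1) (hmul : ∀ m n : ℕ, m.Coprime n → a (m * n) = a m * a n)
    (hgood : ∀ ℓ r : ℕ, ℓ.Prime → ¬ ℓ ∣ N →
      a (ℓ ^ (r + 2)) = a ℓ * a (ℓ ^ (r + 1)) - ℓ * a (ℓ ^ r))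
    (hbad : ∀ ℓ r : ℕ, ℓ.Prime → ℓ ∣ N → a (ℓ ^ (r + 2)) = a ℓ * a (ℓ ^ (r + 1)))
    (a' : ℕ → ℂ) (ha' : ∀ n, a' n = a n - β * (if p ∣ n then a (n / p) else 0)) :
    a' 1 = 1 ∧ (∀ m n : ℕ, m.Coprime n → a' (m * n) = a' m * a' n) ∧
    (∀ ℓ r : ℕ, ℓ.Prime → ¬ ℓ ∣ N * p →
      a' (ℓ ^ (r + 2)) = a' ℓ * a' (ℓ ^ (r + 1)) - ℓ * a' (ℓ ^ r)) ∧
    (∀ ℓ r : ℕ, ℓ.Prime → ℓ ∣ N * p → a' (ℓ ^ (r + 2)) = a' ℓ * a' (ℓ ^ (r + 1))) ∧
    ∀ ℓ : ℕ, ℓ.Prime → ℓ ≠ p → a' ℓ = a ℓ := by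
  have hp0 : 0 < p := hp.pos
  -- values away from `p`
  have hnot : ∀ n : ℕ, ¬ p ∣ n → a' n = a n := by
    intro n hn
    rw [ha', if_neg hn, mul_zero, sub_zero]
  have hdvd : ∀ n : ℕ, a' (p * n) = a (p * n) - β * a n := by
    intro n
    rw [ha', if_pos (dvd_mul_right p n), Nat.mul_div_cancel_left n hp0]
  have hpow_not : ∀ ℓ : ℕ, ℓ.Prime → ℓ ≠ p → ∀ r : ℕ, a' (ℓ ^ r) = a (ℓ ^ r) := by
    intro ℓ hℓ hℓp r
    apply hnot
    intro h
    exact hℓp ((Nat.prime_dvd_prime_iff_eq hp hℓ).mp (hp.dvd_of_dvd_pow h)).symm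
  have h1' : a' 1 = 1 := by
    rw [hnot 1 (by simpa using hp.one_lt.ne'), h1]
  refine ⟨h1', ?_, ?_, ?_, ?_⟩
  · -- multiplicativity
    intro m n hmn
    by_cases hm : p ∣ m
    · obtain ⟨m₁, rfl⟩ := hm
      have hn : ¬ p ∣ n := by
        intro hn
        have := Nat.Coprime.eq_one_of_dvd (Nat.Coprime.coprime_dvd_left (dvd_mul_right p m₁) hmn) hn
        exact hp.one_lt.ne' this
      have hm₁n : m₁.Coprime n := Nat.Coprime.coprime_dvd_left (dvd_mul_left m₁ p) hmn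
      rw [mul_assoc, hdvd, hdvd, hnot n hn, ← mul_assoc, hmul _ _ hmn, hmul _ _ hm₁n]
      ring
    · by_cases hn : p ∣ n
      · obtain ⟨n₁, rfl⟩ := hn
        have hmn₁ : m.Coprime n₁ := Nat.Coprime.coprime_dvd_right (dvd_mul_left n₁ p) hmn
        have e : m * (p * n₁) = p * (m * n₁) := by ring
        rw [e, hdvd, hdvd, hnot m hm, ← e, hmul _ _ hmn, hmul _ _ hmn₁]
        ring
      · have hmn' : ¬ p ∣ m * n := by
          intro h
          rcases (Nat.Prime.dvd_mul hp).mp h with h | h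
          · exact hm h
          · exact hn h
        rw [hnot _ hmn', hnot m hm, hnot n hn, hmul _ _ hmn]
  · -- good primes
    intro ℓ r hℓ hℓNp
    have hℓN : ¬ ℓ ∣ N := fun h => hℓNp (dvd_mul_of_dvd_left h p)
    have hℓp : ℓ ≠ p := fun h => hℓNp (h ▸ dvd_mul_left ℓ N)
    rw [hpow_not ℓ hℓ hℓp, hpow_not ℓ hℓ hℓp, hpow_not ℓ hℓ hℓp,
      ← pow_one ℓ, hpow_not ℓ hℓ hℓp 1, pow_one]
    have := hgood ℓ r hℓ hℓN
    simpa using this
  · -- bad primes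
    intro ℓ r hℓ hℓNp
    by_cases hℓp : ℓ = p
    · subst hℓp
      have e2 : ℓ ^ (r + 2) = ℓ * ℓ ^ (r + 1) := by ring
      have e1 : ℓ ^ (r + 1) = ℓ * ℓ ^ r := by ring
      have hℓ1 : a' ℓ = a ℓ - β := by
        have := hdvd 1
        rw [mul_one, h1, mul_one] at this
        exact this
      have hg := hgood ℓ r hℓ hpN
      rw [e2, hdvd, ← e2, hg, hℓ1]
      rw [e1, hdvd, ← e1]
      have hβ' : (ℓ : ℂ) = a ℓ * β - β * β := by linear_combination hβ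
      rw [hβ']
      ring
    · have hℓN : ℓ ∣ N := by
        rcases (Nat.Prime.dvd_mul hℓ).mp hℓNp with h | h
        · exact h
        · exact absurd ((Nat.prime_dvd_prime_iff_eq hℓ hp).mp h) hℓp
      rw [hpow_not ℓ hℓ hℓp, hpow_not ℓ hℓ hℓp, ← pow_one ℓ, hpow_not ℓ hℓ hℓp 1, pow_one]
      have := hbad ℓ r hℓ hℓN
      simpa using this
  · intro ℓ hℓ hℓp
    have := hpow_not ℓ hℓ hℓp 1
    simpa using this

end Arith

section Analytic

open UpperHalfPlane ModularForm CongruenceSubgroup Matrix.SpecialLinearGroup ConjAct Pointwise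
open scoped MatrixGroups
open Fermat.Agent.S23Converse Fermat.Agent.S16Norm

/-- Restriction of a cusp form to a smaller group. -/
def pstabRestrict {Γ Γ' : Subgroup (GL (Fin 2) ℝ)} {k : ℤ} (h : Γ' ≤ Γ) (F : CuspForm Γ k) :
    CuspForm Γ' k where
  toFun := F
  slash_action_eq' := fun γ hγ => F.slash_action_eq' γ (h hγ)
  holo' := F.holo'
  zero_at_cusps' := fun hc => F.zero_at_cusps' (hc.mono h)

@[simp] theorem coe_pstabRestrict {Γ Γ' : Subgroup (GL (Fin 2) ℝ)} {k : ℤ} (h : Γ' ≤ Γ)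
    (F : CuspForm Γ k) : (pstabRestrict h F : ℍ → ℂ) = F := rfl

/-- `Γ₀(N p) ⊆ δ⁻¹ Γ₀(N) δ`, `δ = diag(p, 1)`. -/
theorem pstab_le (N : ℕ) {p : ℕ} (hp : p ≠ 0) :
    ((Gamma0 (N * p)).map (mapGL ℝ)) ≤
      toConjAct (heckeDiagMatrix p)⁻¹ • ((Gamma0 N).map (mapGL ℝ)) := by
  rintro _ ⟨γ, hγ, rfl⟩
  rw [map_inv, Subgroup.mem_inv_pointwise_smul_iff, toConjAct_smul]
  -- the lower left entry is divisible by `N p`
  have hc : ((N * p : ℕ) : ℤ) ∣ γ 1 0 := by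
    have := Gamma0_mem.mp hγ
    exact (ZMod.intCast_zmod_eq_zero_iff_dvd _ _).mp this
  obtain ⟨c', hc'⟩ := hc
  have hdet := γ.det_coe
  rw [Matrix.det_fin_two] at hdet
  have hc'' : (γ 1 0 : ℤ) = (N : ℤ) * (p : ℤ) * c' := by
    rw [hc']; push_cast; ring
  have hdet' : (γ 0 0 * γ 1 1 - (p : ℤ) * γ 0 1 * ((N : ℤ) * c')) = 1 := by
    linear_combination hdet + (γ 0 1) * hc''
  let γ' : SL(2, ℤ) := ⟨!![γ 0 0, (p : ℤ) * γ 0 1; (N : ℤ) * c', γ 1 1], by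
    rw [Matrix.det_fin_two_of]; exact hdet'⟩
  refine ⟨γ', Gamma0_mem.mpr ?_, ?_⟩
  · show (((N : ℤ) * c' : ℤ) : ZMod N) = 0
    push_cast
    simp
  · rw [eq_mul_inv_iff_mul_eq]
    apply Matrix.GeneralLinearGroup.ext
    intro i j
    simp only [Matrix.GeneralLinearGroup.coe_mul, mapGL_coe_matrix, val_heckeDiagMatrix hp,
      Matrix.mul_apply, Fin.sum_univ_two]
    fin_cases i <;> fin_cases j <;>
      simp [γ', hc'', Matrix.SpecialLinearGroup.map_apply_coe] <;> ring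

/-- The cusp form `f - β f(p z)` of level `N p` and its `q`-expansion. -/
theorem pstab_exists_form {N : ℕ} {p : ℕ} (hp : p ≠ 0)
    (f : CuspForm (Gamma0 N) 2) (β : ℂ) :
    ∃ g : CuspForm (Gamma0 (N * p)) 2, ∀ n : ℕ,
      ModularFormClass.qCoeff g n = ModularFormClass.qCoeff f n
        - β * (if p ∣ n then ModularFormClass.qCoeff f (n / p) else 0) := by
  have hle : ((Gamma0 (N * p)).map (mapGL ℝ)) ≤ ((Gamma0 N).map (mapGL ℝ)) := by
    apply Subgroup.map_mono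
    intro γ hγ
    rw [Gamma0_mem] at hγ ⊢
    have h1 : ((N * p : ℕ) : ℤ) ∣ γ 1 0 := (ZMod.intCast_zmod_eq_zero_iff_dvd _ _).mp hγ
    have h2 : ((N : ℕ) : ℤ) ∣ γ 1 0 := by
      refine dvd_trans ?_ h1
      exact_mod_cast dvd_mul_right N p
    exact (ZMod.intCast_zmod_eq_zero_iff_dvd _ _).mpr h2
  let g₁ : CuspForm (Gamma0 (N * p)) 2 := pstabRestrict hle f
  let g₂ : CuspForm (Gamma0 (N * p)) 2 :=
    pstabRestrict (pstab_le N hp) (CuspForm.translate f (heckeDiagMatrix p))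
  have hg₂ : (g₂ : ℍ → ℂ) = (p : ℂ) • dil p (f : ℍ → ℂ) := by
    funext τ
    show ((f : ℍ → ℂ) ∣[(2 : ℤ)] heckeDiagMatrix p) τ = _
    rw [slash_heckeDiagMatrix_apply 2 hp]
    simp
  refine ⟨g₁ - (β / p) • g₂, fun n => ?_⟩
  have hp' : (p : ℂ) ≠ 0 := by exact_mod_cast hp
  have hcoe : ((g₁ - (β / p) • g₂ : CuspForm (Gamma0 (N * p)) 2) : ℍ → ℂ)
      = (f : ℍ → ℂ) + -(β • dil p (f : ℍ → ℂ)) := by
    funext τ
    have h2 := congrFun hg₂ τ
    simp only [CuspForm.coe_sub, Pi.sub_apply, Pi.add_apply, Pi.neg_apply, Pi.smul_apply,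
      smul_eq_mul] at h2 ⊢
    show g₁ τ - ((β / p) • g₂) τ = _
    have : ((β / p) • g₂) τ = (β / p) * g₂ τ := rfl
    rw [this, h2]
    show f τ - _ = _
    field_simp
    ring
  have hgood : IsGood (f : ℍ → ℂ) :=
    isGood_of_modularFormClass (Fermat.Agent.S23.one_mem_strictPeriods_G0 N) f
  have hd : IsGood (dil p (f : ℍ → ℂ)) := isGood_dil hp hgood
  have hqf : Fermat.Agent.S23.QA (f : ℍ → ℂ) := hgood.analyticAt
  have hqd : Fermat.Agent.S23.QA (dil p (f : ℍ → ℂ)) := hd.analyticAt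
  unfold ModularFormClass.qCoeff
  rw [hcoe, Fermat.Agent.S23.QA.qExpansion_add hqf (hqd.smul β).neg,
    Fermat.Agent.S23.QA.qExpansion_neg (hqd.smul β), Fermat.Agent.S23.QA.qExpansion_smul β hqd]
  simp only [map_add, map_neg, PowerSeries.coeff_smul, smul_eq_mul]
  rw [coeff_dil hp hgood]
  ring

end Analytic

/-- (E2) `p`-stabilisation: a normalised eigenform of level `N` prime to `p` gives a normalised
eigenform of level `N p` with the same `a_ℓ`, `ℓ ≠ p`.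
(`g(z) = f(z) - β f(p z)`, `β` a root of `X² - a_p X + p`; `a_n(g) = a_n(f) - β a_{n/p}(f)`.) -/
theorem exists_pStabilisation {N : ℕ} [NeZero N] {p : ℕ} (hp : p.Prime) (hpN : ¬ p ∣ N)
    (f : CuspForm (CongruenceSubgroup.Gamma0 N) 2) (hf : f.IsNormalizedEigenform) :
    ∃ g : CuspForm (CongruenceSubgroup.Gamma0 (N * p)) 2, g.IsNormalizedEigenform ∧
      ∀ ℓ : ℕ, ℓ.Prime → ℓ ≠ p → ModularFormClass.qCoeff g ℓ = ModularFormClass.qCoeff f ℓ := by
  -- a root `β` of `X² - a_p X + p`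
  obtain ⟨β, hβ⟩ : ∃ β : ℂ, β * β - ModularFormClass.qCoeff f p * β + p = 0 := by
    obtain ⟨s, hs⟩ := IsAlgClosed.exists_eq_mul_self
      (discrim (1 : ℂ) (-ModularFormClass.qCoeff f p) (p : ℂ))
    obtain ⟨x, hx⟩ := exists_quadratic_eq_zero (one_ne_zero) ⟨s, hs⟩
    exact ⟨x, by linear_combination hx⟩
  obtain ⟨g, hg⟩ := pstab_exists_form hp.ne_zero f β
  obtain ⟨h1, h2, h3, h4, h5⟩ := pstab_arith hp hpN (fun n => ModularFormClass.qCoeff f n) β hβ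
    hf.qCoeff_one hf.qCoeff_mul_of_coprime hf.qCoeff_prime_pow_of_not_dvd
    hf.qCoeff_prime_pow_of_dvd (fun n => ModularFormClass.qCoeff g n) hg
  exact ⟨g, ⟨h1, h2, h3, h4⟩, h5⟩

end Fermat.Agent.S59
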