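/-
Cluster J (S59), endgame leaf (E1).  Owner: helper23.

A ring homomorphism from the Hecke algebra (away from `S`) to a characteristic-zero domain is the
eigensystem of a normalised eigenform.

Route: `P = ker χ` is a prime of `𝕋_S` over `(0) ⊂ ℤ`.  The full Hecke algebra `𝕋_∅` is integral
over `𝕋_S` (both are finite over `ℤ`, S22), so there is a prime `Q` of `𝕋_∅` over `P`
(lying over).  The eigenvector lemma (S49 library) gives a common eigenvector `v` of `𝕋_∅` whose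
character `Ψ` has kernel inside `Q`; then `ker (Ψ|𝕋_S) ⊆ P` are two primes of `𝕋_S` over
`(0) ⊂ ℤ`, hence equal (incomparability).  Finally `v` is normalised by
`exists_normalizedEigenform_of_eigenvector`.
-/
import Fermat.Prelude.Def_CuspForm_HeckeAlgebra
import Fermat.Prelude.Def_FLTPrelim_Modularity
import Fermat.Agent.S22
import Fermat.Agent.S23.FiniteDim
import Fermat.Agent.S49.H91Eigen
import Fermat.Agent.S49.H91StepC

set_option autoImplicit false
set_option linter.style.haveILetI false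

open Polynomial

namespace Fermat.Agent.S59

open CuspForm IsLocalRing

/-- Abstract core of (E1): common eigenvector of the big ring `𝕋₂` whose character, restricted
to the subring `𝕋₁`, has kernel containing `ker χ`. -/
theorem e1_exists_eigenvector_of_hom
    {K : Type*} [Field K] [IsAlgClosed K] [CharZero K]
    {V : Type*} [AddCommGroup V] [Module K V] [FiniteDimensional K V] [Nontrivial V]
    {𝕋₁ 𝕋₂ : Type*} [CommRing 𝕋₁] [CommRing 𝕋₂]
    (hint₁ : Algebra.IsIntegral ℤ 𝕋₁) (hint₂ : Algebra.IsIntegral ℤ 𝕋₂)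
    (ι : 𝕋₁ →+* 𝕋₂) (hι : Function.Injective ι)
    (ρ : 𝕋₂ →+* Module.End K V) (hρ : Function.Injective ρ)
    {A : Type*} [CommRing A] [IsDomain A] [CharZero A] (χ : 𝕋₁ →+* A) :
    ∃ v : V, v ≠ 0 ∧ ∃ Ψ : 𝕋₂ →+* K, (∀ t, ρ t v = Ψ t • v) ∧
      ∀ t : 𝕋₁, χ t = 0 → Ψ (ι t) = 0 := by
  classical
  letI : Algebra 𝕋₁ 𝕋₂ := ι.toAlgebra
  have halg : ∀ t : 𝕋₁, algebraMap 𝕋₁ 𝕋₂ t = ι t := fun _ => rfl
  have hint₂₁ : Algebra.IsIntegral 𝕋₁ 𝕋₂ := by
    refine ⟨fun x => ?_⟩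
    obtain ⟨p, hp, hpx⟩ := hint₂.isIntegral x
    refine ⟨p.map (Int.castRingHom 𝕋₁), hp.map _, ?_⟩
    rw [Polynomial.eval₂_map]
    have : (algebraMap 𝕋₁ 𝕋₂).comp (Int.castRingHom 𝕋₁) = algebraMap ℤ 𝕋₂ :=
      RingHom.ext_int _ _
    rw [this]
    exact hpx
  -- the prime `P = ker χ`
  have hP : (RingHom.ker χ).IsPrime := RingHom.ker_isPrime χ
  obtain ⟨Q, -, hQ, hQP⟩ := Ideal.exists_ideal_over_prime_of_isIntegral (RingHom.ker χ)
    (⊥ : Ideal 𝕋₂) (by
      intro t ht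
      rw [Ideal.mem_comap, Ideal.mem_bot, halg] at ht
      have : t = 0 := hι (ht.trans (map_zero ι).symm)
      rw [this]
      exact Ideal.zero_mem _)
  obtain ⟨v, hv, Ψ, hΨ, hΨQ⟩ := Fermat.Agent.S49h91.exists_common_eigenvector_of_prime ρ Q
    (fun t ht => by
      have : t = 0 := hρ (ht.trans (map_zero ρ).symm)
      rw [this]
      exact Ideal.zero_mem _)
  refine ⟨v, hv, Ψ, hΨ, ?_⟩
  -- incomparability
  set P' : Ideal 𝕋₁ := RingHom.ker (Ψ.comp ι) with hP'
  have hP'prime : P'.IsPrime := RingHom.ker_isPrime _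
  have hle : P' ≤ RingHom.ker χ := by
    intro t ht
    have h1 : Ψ (ι t) = 0 := ht
    have h2 : ι t ∈ Q := hΨQ _ h1
    have h3 : t ∈ Q.comap (algebraMap 𝕋₁ 𝕋₂) := h2
    rwa [hQP] at h3
  intro t ht
  by_contra hne
  have hmem : t ∈ ((RingHom.ker χ : Ideal 𝕋₁) : Set 𝕋₁) \ P' := ⟨ht, hne⟩
  have hlt := Ideal.comap_lt_comap_of_integral_mem_sdiff (R := ℤ) hle hmem
    (hint₁.isIntegral t)
  have hbot : (RingHom.ker χ).comap (algebraMap ℤ 𝕋₁) = ⊥ := by
    rw [eq_bot_iff]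
    intro n hn
    rw [Ideal.mem_comap, RingHom.mem_ker, eq_intCast, map_intCast] at hn
    rw [Ideal.mem_bot]
    exact_mod_cast hn
  rw [hbot] at hlt
  exact not_lt_bot hlt

/-- (E1) A ring homomorphism `χ` from the Hecke algebra of level `N` (away from `S`) to a domain of
characteristic zero is the eigensystem of a normalised eigenform `f` of level `N`: whenever
`χ(T_ℓ)` is an integer `a`, one has `a_ℓ(f) = a`.
(Route: `ker χ` is a prime of the finite `ℤ`-algebra `𝕋` (S22) lying over `0`; common eigenvector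
`Fermat.Agent.S49...exists_common_eigenvector_of_prime`; extend to an eigenvector of all Hecke
operators inside the eigenspace; normalise with `exists_normalizedEigenform_of_eigenvector`.) -/
theorem exists_eigenform_of_heckeAlgebra_hom {N : ℕ} [NeZero N] (S : Set ℕ)
    {A : Type} [CommRing A] [IsDomain A] [CharZero A]
    (χ : heckeAlgebra N 2 S →+* A) :
    ∃ f : CuspForm (CongruenceSubgroup.Gamma0 N) 2, f.IsNormalizedEigenform ∧
      ∀ (ℓ : ℕ) (hℓ : ℓ.Prime) (hℓN : ¬ ℓ ∣ N) (hℓS : ℓ ∉ S) (a : ℤ),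
        χ (heckeAlgebra.T hℓ hℓN hℓS) = (a : A) → ModularFormClass.qCoeff f ℓ = (a : ℂ) := by
  classical
  haveI hfd : FiniteDimensional ℂ (CuspForm (CongruenceSubgroup.Gamma0 N) 2) :=
    Fermat.Agent.S23.finiteDimensional_cuspForm N 2
  haveI hfin₁ : Module.Finite ℤ (heckeAlgebra N 2 S) := Fermat.Agent.S22.result N 2 S
  haveI hfin₂ : Module.Finite ℤ (heckeAlgebra N 2 (∅ : Set ℕ)) := Fermat.Agent.S22.result N 2 ∅
  have hint₁ : Algebra.IsIntegral ℤ (heckeAlgebra N 2 S) := inferInstance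
  have hint₂ : Algebra.IsIntegral ℤ (heckeAlgebra N 2 (∅ : Set ℕ)) := inferInstance
  -- the space of cusp forms is nontrivial since the Hecke algebra maps to a nontrivial ring
  haveI hnt : Nontrivial (CuspForm (CongruenceSubgroup.Gamma0 N) 2) := by
    by_contra hsub
    rw [not_nontrivial_iff_subsingleton] at hsub
    have h01 : (0 : heckeAlgebra N 2 S) = 1 := by
      apply Subtype.ext
      apply LinearMap.ext
      intro x
      exact Subsingleton.elim _ _
    have := congrArg χ h01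
    rw [map_zero, map_one] at this
    exact zero_ne_one this
  let ι : heckeAlgebra N 2 S →+* heckeAlgebra N 2 (∅ : Set ℕ) :=
    (Subalgebra.inclusion (heckeAlgebra_mono (N := N) (k := 2) (Set.empty_subset S))).toRingHom
  have hι : Function.Injective ι :=
    Subalgebra.inclusion_injective (heckeAlgebra_mono (N := N) (k := 2) (Set.empty_subset S))
  let ρ : heckeAlgebra N 2 (∅ : Set ℕ) →+*
      Module.End ℂ (CuspForm (CongruenceSubgroup.Gamma0 N) 2) :=
    (heckeAlgebra N 2 (∅ : Set ℕ)).val.toRingHom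
  have hρ : Function.Injective ρ := Subtype.val_injective
  obtain ⟨v, hv, Ψ, hΨ, hker⟩ := e1_exists_eigenvector_of_hom hint₁ hint₂ ι hι ρ hρ χ
  set θ : ℕ → ℂ := fun ℓ =>
    if h : ℓ.Prime then
      (if hN : ℓ ∣ N then Ψ (heckeAlgebra.U h hN (Set.notMem_empty ℓ))
        else Ψ (heckeAlgebra.T h hN (Set.notMem_empty ℓ)))
    else 0 with hθ
  have hT : ∀ (ℓ : ℕ) (hℓ : ℓ.Prime) (hℓN : ¬ ℓ ∣ N),
      CuspForm.heckeTLin 2 hℓ hℓN v = θ ℓ • v := by
    intro ℓ hℓ hℓN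
    have h := hΨ (heckeAlgebra.T hℓ hℓN (Set.notMem_empty ℓ))
    have hθℓ : θ ℓ = Ψ (heckeAlgebra.T hℓ hℓN (Set.notMem_empty ℓ)) := by
      simp only [hθ, dif_pos hℓ, dif_neg hℓN]
    rw [hθℓ]
    exact h
  have hU : ∀ (ℓ : ℕ) (_ : ℓ.Prime) (hℓN : ℓ ∣ N),
      CuspForm.heckeULin 2 hℓN v = θ ℓ • v := by
    intro ℓ hℓ hℓN
    have h := hΨ (heckeAlgebra.U hℓ hℓN (Set.notMem_empty ℓ))
    have hθℓ : θ ℓ = Ψ (heckeAlgebra.U hℓ hℓN (Set.notMem_empty ℓ)) := by
      simp only [hθ, dif_pos hℓ, dif_pos hℓN]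
    rw [hθℓ]
    exact h
  obtain ⟨g, hg, hgθ⟩ := Fermat.Agent.S49h91.exists_normalizedEigenform_of_eigenvector v hv θ hT hU
  refine ⟨g, hg, ?_⟩
  intro ℓ hℓ hℓN hℓS a ha
  rw [hgθ ℓ hℓ]
  have hθℓ : θ ℓ = Ψ (heckeAlgebra.T hℓ hℓN (Set.notMem_empty ℓ)) := by
    simp only [hθ, dif_pos hℓ, dif_neg hℓN]
  rw [hθℓ]
  have h0 : χ (heckeAlgebra.T hℓ hℓN hℓS - (a : heckeAlgebra N 2 S)) = 0 := by
    rw [map_sub, map_intCast, ha, sub_self]
  have h1 := hker _ h0
  rw [map_sub, map_sub, map_intCast, map_intCast, sub_eq_zero] at h1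
  rw [← h1]
  rfl

end Fermat.Agent.S59
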