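/-
Cluster J (S59), endgame leaf (E3).  Owner: helper96.
-/
import Fermat.Prelude.Def_CuspForm_HeckeGaloisRepDatum
import Fermat.Prelude.Def_GaloisRep_DeformationRingData
import Fermat.Agent.Lib.Frobenius.Exists

set_option autoImplicit false
set_option linter.style.haveILetI false

open Polynomial

namespace Fermat.Agent.S59

open CuspForm IsLocalRing

/-- The trace of an endomorphism of a free module of rank `2` with characteristic polynomial
`X² - a X + b` is `a`. -/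
theorem point_trace_eq_of_charpoly {T : Type} [CommRing T] [Nontrivial T] {V : Type}
    [AddCommGroup V] [Module T V] [Module.Free T V] [Module.Finite T V]
    (hV : Module.finrank T V = 2) (f : Module.End T V) (a b : T)
    (h : LinearMap.charpoly f = X ^ 2 - C a * X + C b) : LinearMap.trace T V f = a := by
  classical
  let bas := Module.Free.chooseBasis T V
  have hcard : Fintype.card (Module.Free.ChooseBasisIndex T V) = 2 := by
    rw [← Module.finrank_eq_card_chooseBasisIndex, hV]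
  have : Nonempty (Module.Free.ChooseBasisIndex T V) := by
    rw [← Fintype.card_pos_iff, hcard]; norm_num
  rw [LinearMap.trace_eq_matrix_trace T bas, Matrix.trace_eq_neg_charpoly_coeff, hcard,
    LinearMap.charpoly_toMatrix f bas, h]
  simp [coeff_C]

/-- Traces are compatible with base change along a local homomorphism, up to equivalence. -/
theorem point_trace_baseChangeAlong {A B : Type} [CommRing A] [IsLocalRing A] [CommRing B]
    [IsLocalRing B] (φ : A →+* B) (hφ : IsLocalHom φ) (ρ : GaloisRepAdic A)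
    (ρ' : GaloisRepAdic B) (e : (ρ.baseChangeAlong φ hφ).Equiv ρ')
    (σ : AlgebraicClosure ℚ ≃ₐ[ℚ] AlgebraicClosure ℚ) :
    LinearMap.trace B ρ'.V (ρ'.ρ σ) = φ (LinearMap.trace A ρ.V (ρ.ρ σ)) := by
  let _ : Algebra A B := φ.toAlgebra
  have h1 : ρ'.ρ σ = e.toLinearEquiv.conj ((ρ.baseChangeAlong φ hφ).ρ σ) := by
    ext x
    simp only [LinearEquiv.conj_apply, LinearMap.comp_apply, LinearEquiv.coe_coe]
    rw [e.map_apply, LinearEquiv.apply_symm_apply]
  rw [h1, LinearMap.trace_conj']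
  exact LinearMap.trace_baseChange (ρ.ρ σ) B

/-- (E3) If the universal deformation ring maps bijectively onto the Hecke ring `T`, compatibly
with the representations, then every deformation `ρ` of type `𝒟` over `𝒪` comes from a ring
homomorphism `χ` of the Hecke algebra: `χ(T_ℓ) = a ℓ` whenever the Frobenius at `ℓ` has
characteristic polynomial `X² - a_ℓ X + ℓ` on `ρ`.
(Route: `x : R → 𝒪` classifying `ρ` (`DR.universal`), `ψ = x ∘ φ⁻¹`, `χ = ψ ∘ DT.π`; compare the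
traces of Frobenius, using `DT.charpoly_frob`, base change of the trace,
and the existence of Frobenius elements.) -/
theorem exists_heckeAlgebra_hom_of_bijective
    {𝒪 : Type} [CommRing 𝒪] [IsDomain 𝒪] [IsDiscreteValuationRing 𝒪]
    [IsAdicComplete (maximalIdeal 𝒪) 𝒪]
    {N : ℕ} [NeZero N] {S : Set ℕ} {θ : heckeAlgebra N 2 S →+* ResidueField 𝒪}
    {T : Type} [CommRing T] [IsLocalRing T] [IsNoetherianRing T]
    [IsAdicComplete (maximalIdeal T) T] [Algebra 𝒪 T] [IsLocalHom (algebraMap 𝒪 T)]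
    [Module.Finite 𝒪 T] [Module.Free 𝒪 T]
    (DT : HeckeGaloisRepDatum N S 𝒪 θ T)
    {ρbar : ResidualGaloisRep (ResidueField 𝒪)}
    {𝒟 : ∀ ⦃A : Type⦄ [CommRing A] [IsLocalRing A] [Algebra 𝒪 A], GaloisRepAdic A → Prop}
    (DR : GaloisRep.DeformationRingData 𝒪 ρbar 𝒟)
    (φ : DR.R →ₐ[𝒪] T) (hφ : Function.Bijective φ) (hφloc : IsLocalHom (φ : DR.R →+* T))
    (hρ : (DR.ρ.baseChangeAlong (φ : DR.R →+* T) hφloc).IsEquiv DT.ρ)
    (ρ : GaloisRepAdic 𝒪) (h𝒟 : 𝒟 ρ)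
    (hres : ρ.residual.IsEquiv
      (ρbar.baseChangeAlong (ResidueField.map (algebraMap 𝒪 𝒪))))
    (a : ℕ → 𝒪)
    (ha : ∀ ℓ : ℕ, ℓ.Prime → ¬ ℓ ∣ N → ℓ ∉ S →
      ∀ A : ValuationSubring (AlgebraicClosure ℚ), A.LiesOverPrime ℓ →
        ∀ σ : AlgebraicClosure ℚ ≃ₐ[ℚ] AlgebraicClosure ℚ, A.IsFrobeniusAt σ ℓ →
          LinearMap.charpoly (ρ.ρ σ) = X ^ 2 - C (a ℓ) * X + C ((ℓ : 𝒪))) :
    ∃ χ : heckeAlgebra N 2 S →+* 𝒪,
      ∀ (ℓ : ℕ) (hℓ : ℓ.Prime) (hℓN : ¬ ℓ ∣ N) (hℓS : ℓ ∉ S),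
        χ (heckeAlgebra.T hℓ hℓN hℓS) = a ℓ := by
  -- the point of `R` classifying `ρ`
  have hloc𝒪 : IsLocalHom (algebraMap 𝒪 𝒪) := by
    rw [Algebra.algebraMap_self]
    exact isLocalHom_id 𝒪
  have hsurj𝒪 : Function.Surjective (IsLocalRing.residue 𝒪 ∘ algebraMap 𝒪 𝒪) := by
    rw [Algebra.algebraMap_self]
    exact IsLocalRing.residue_surjective
  obtain ⟨x, ⟨hx, ⟨ex⟩⟩, -⟩ := DR.universal 𝒪 hsurj𝒪 ρ h𝒟 hres
  obtain ⟨eφ⟩ := hρ
  let E : DR.R ≃+* T := RingEquiv.ofBijective (φ : DR.R →+* T) hφ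
  refine ⟨((x : DR.R →+* 𝒪).comp (E.symm : T →+* DR.R)).comp DT.π, fun ℓ hℓ hℓN hℓS => ?_⟩
  obtain ⟨A, σ, hA, hσ⟩ := Fermat.Agent.FrobExists.exists_frobenius ℓ hℓ
  -- traces
  have h1 := point_trace_eq_of_charpoly DT.ρ.finrank_eq _ _ _ (DT.charpoly_frob ℓ hℓ hℓN hℓS A hA σ hσ)
  have h2 := point_trace_eq_of_charpoly ρ.finrank_eq _ _ _ (ha ℓ hℓ hℓN hℓS A hA σ hσ)
  have h3 := point_trace_baseChangeAlong (φ : DR.R →+* T) hφloc DR.ρ DT.ρ eφ σ
  have h4 := point_trace_baseChangeAlong (x : DR.R →+* 𝒪) hx DR.ρ ρ ex σ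
  rw [h1] at h3
  rw [h2] at h4
  have h5 : E.symm (DT.π (heckeAlgebra.T hℓ hℓN hℓS))
      = LinearMap.trace DR.R DR.ρ.V (DR.ρ.ρ σ) := by
    rw [RingEquiv.symm_apply_eq]
    exact h3
  show x (E.symm (DT.π (heckeAlgebra.T hℓ hℓN hℓS))) = a ℓ
  rw [h5]
  exact h4.symm

end Fermat.Agent.S59
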